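import Fermat.Agent.S19.Hopf.Core

/-!
# S19 / Part A : the antipode axioms (task S19/A-Antipode)

METHOD: `AlgHom.ext`, then apply an injective map from the target to a function algebra
(`mu3_injective`, `mu2_injective`, `Subtype.val_injective`, `hinj`), `funext` a point, and compute.  The
computation needs a "naturality" lemma, proved by `TensorProduct.induction_on` (pure tensors: `mu2_tmul`,
`mu3_tmul`, `mu2_comulHom`, `algebraMap_counitHom`; sums: `map_add`, `Pi.add_apply`):
* `((lift antipode id t : H) : G → Ω) x = mu2 H H t (-x, x)`;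
* `((lift id antipode t : H) : G → Ω) x = mu2 H H t (x, -x)`.
Then `mu2_comulHom` gives `φ (-x + x) = φ 0 = algebraMap R Ω (counit φ)`.
-/

set_option autoImplicit false
set_option linter.style.haveILetI false
set_option linter.unusedSectionVars false

open scoped TensorProduct

namespace Fermat.Agent.S19.Hopf

variable {R Ω : Type*} [CommRing R] [Field Ω] [Algebra R Ω]
variable {G : Type*} [AddCommGroup G]
variable (hinj : Function.Injective (algebraMap R Ω)) {H : Subalgebra R (G → Ω)}
  (hH : IsHopfOrder H)

omit [AddCommGroup G] in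
theorem Antipode_coe_algebraMap (H : Subalgebra R (G → Ω)) (r : R) (x : G) :
    ((algebraMap R H r : H) : G → Ω) x = algebraMap R Ω r := rfl

theorem Antipode_lift_left (hc : ∀ a c : H, Commute (antipodeHom hH a) (AlgHom.id R H c))
    (t : H ⊗[R] H) (x : G) :
    ((Algebra.TensorProduct.lift (antipodeHom hH) (.id R H) hc t : H) :
      G → Ω) x = mu2 H H t (-x, x) := by
  induction t using TensorProduct.induction_on with
  | zero => simp
  | tmul a c =>
    rw [Algebra.TensorProduct.lift_tmul, mu2_tmul]
    rfl
  | add t₁ t₂ h₁ h₂ =>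
    rw [map_add, map_add, Pi.add_apply, ← h₁, ← h₂]
    rfl

theorem Antipode_lift_right (hc : ∀ a c : H, Commute (AlgHom.id R H a) (antipodeHom hH c))
    (t : H ⊗[R] H) (x : G) :
    ((Algebra.TensorProduct.lift (.id R H) (antipodeHom hH) hc t : H) :
      G → Ω) x = mu2 H H t (x, -x) := by
  induction t using TensorProduct.induction_on with
  | zero => simp
  | tmul a c =>
    rw [Algebra.TensorProduct.lift_tmul, mu2_tmul]
    rfl
  | add t₁ t₂ h₁ h₂ =>
    rw [map_add, map_add, Pi.add_apply, ← h₁, ← h₂]
    rfl

theorem antipode_left_eq :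
    ((Algebra.TensorProduct.lift (antipodeHom hH) (.id R H) fun _ => Commute.all _).comp
        (comulHom hinj hH)) = (Algebra.ofId R H).comp (counitHom hinj hH) := by
  refine AlgHom.ext fun φ => Subtype.val_injective (funext fun x => ?_)
  have h1 := Antipode_lift_left hH (fun _ _ => Commute.all _ _) (comulHom hinj hH φ) x
  rw [mu2_comulHom] at h1
  refine h1.trans ?_
  show (φ : G → Ω) (-x + x) = ((algebraMap R H (counitHom hinj hH φ) : H) : G → Ω) x
  rw [Antipode_coe_algebraMap, algebraMap_counitHom, neg_add_cancel]

theorem antipode_right_eq :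
    ((Algebra.TensorProduct.lift (.id R H) (antipodeHom hH) fun _ _ => Commute.all _ _).comp
        (comulHom hinj hH)) = (Algebra.ofId R H).comp (counitHom hinj hH) := by
  refine AlgHom.ext fun φ => Subtype.val_injective (funext fun x => ?_)
  have h1 := Antipode_lift_right hH (fun _ _ => Commute.all _ _) (comulHom hinj hH φ) x
  rw [mu2_comulHom] at h1
  refine h1.trans ?_
  show (φ : G → Ω) (x + -x) = ((algebraMap R H (counitHom hinj hH φ) : H) : G → Ω) x
  rw [Antipode_coe_algebraMap, algebraMap_counitHom, add_neg_cancel]

end Fermat.Agent.S19.Hopf
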