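import Fermat.Agent.S19.Hopf.Core

/-!
# S19 / Part A : the counit axioms (task S19/A-Counit)

METHOD: `AlgHom.ext`, then apply an injective map from the target to a function algebra
(`mu3_injective`, `mu2_injective`, `Subtype.val_injective`, `hinj`), `funext` a point, and compute.  The
computation needs a "naturality" lemma, proved by `TensorProduct.induction_on` (pure tensors: `mu2_tmul`,
`mu3_tmul`, `mu2_comulHom`, `algebraMap_counitHom`; sums: `map_add`, `Pi.add_apply`):
* `((lid ((counit ⊗ id) t) : H) : G → Ω) x = mu2 H H t (0, x)`;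
* `((rid ((id ⊗ counit) t) : H) : G → Ω) x = mu2 H H t (x, 0)`.
To prove `f = e.symm` for an `AlgEquiv e`, prove `e (f φ) = φ`.
-/

set_option autoImplicit false
set_option linter.style.haveILetI false
set_option linter.unusedSectionVars false

open scoped TensorProduct

namespace Fermat.Agent.S19.Hopf

variable {R Ω : Type*} [CommRing R] [Field Ω] [Algebra R Ω]
variable {G : Type*} [AddCommGroup G]
variable (hinj : Function.Injective (algebraMap R Ω)) {H : Subalgebra R (G → Ω)}
  (hH : IsHopfOrder H)

theorem Counit_lid_nat (t : H ⊗[R] H) (x : G) :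
    ((Algebra.TensorProduct.lid R H
      (Algebra.TensorProduct.map (counitHom hinj hH) (.id R H) t) : H) : G → Ω) x
      = mu2 H H t (0, x) := by
  induction t using TensorProduct.induction_on with
  | zero => simp
  | tmul a c =>
    rw [Algebra.TensorProduct.map_tmul, Algebra.TensorProduct.lid_tmul, mu2_tmul, AlgHom.id_apply,
      Subalgebra.coe_smul, Pi.smul_apply, Algebra.smul_def, algebraMap_counitHom]
  | add s t hs ht =>
    rw [map_add, map_add, map_add, Subalgebra.coe_add, Pi.add_apply, Pi.add_apply, hs, ht]

theorem Counit_rid_nat (t : H ⊗[R] H) (x : G) :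
    ((Algebra.TensorProduct.rid R R H
      (Algebra.TensorProduct.map (.id R H) (counitHom hinj hH) t) : H) : G → Ω) x
      = mu2 H H t (x, 0) := by
  induction t using TensorProduct.induction_on with
  | zero => simp
  | tmul a c =>
    rw [Algebra.TensorProduct.map_tmul, Algebra.TensorProduct.rid_tmul, mu2_tmul, AlgHom.id_apply,
      Subalgebra.coe_smul, Pi.smul_apply, Algebra.smul_def, algebraMap_counitHom, mul_comm]
  | add s t hs ht =>
    rw [map_add, map_add, map_add, Subalgebra.coe_add, Pi.add_apply, Pi.add_apply, hs, ht]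

theorem rTensor_eq :
    (Algebra.TensorProduct.map (counitHom hinj hH) (.id R H)).comp (comulHom hinj hH)
      = (Algebra.TensorProduct.lid R H).symm := by
  apply AlgHom.ext
  intro φ
  rw [AlgHom.comp_apply]
  refine (AlgEquiv.eq_symm_apply (Algebra.TensorProduct.lid R H)).mpr ?_
  apply Subtype.ext
  funext x
  rw [Counit_lid_nat, mu2_comulHom, zero_add]

theorem lTensor_eq :
    (Algebra.TensorProduct.map (.id R H) (counitHom hinj hH)).comp (comulHom hinj hH)
      = (Algebra.TensorProduct.rid R R H).symm := by
  apply AlgHom.ext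
  intro φ
  rw [AlgHom.comp_apply]
  refine (AlgEquiv.eq_symm_apply (Algebra.TensorProduct.rid R R H)).mpr ?_
  apply Subtype.ext
  funext x
  rw [Counit_rid_nat, mu2_comulHom, add_zero]

end Fermat.Agent.S19.Hopf
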