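import Fermat.Agent.S19.Hopf.Coassoc
import Fermat.Agent.S19.Hopf.Counit
import Fermat.Agent.S19.Hopf.Antipode

/-!
# S19 / Part A : the bialgebra and Hopf algebra structures on a Hopf order
-/

set_option autoImplicit false
set_option linter.style.haveILetI false
set_option linter.unusedSectionVars false

open scoped TensorProduct

namespace Fermat.Agent.S19.Hopf

variable {R Ω : Type*} [CommRing R] [Field Ω] [Algebra R Ω]
variable {G : Type*} [AddCommGroup G]
variable (hinj : Function.Injective (algebraMap R Ω)) {H : Subalgebra R (G → Ω)}
  (hH : IsHopfOrder H)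

/-- the bialgebra structure. -/
@[reducible] noncomputable def bialgebra : Bialgebra R H :=
  Bialgebra.ofAlgHom (comulHom hinj hH) (counitHom hinj hH) (coassoc_eq hinj hH)
    (rTensor_eq hinj hH) (lTensor_eq hinj hH)

/-- the Hopf algebra structure. -/
@[reducible] noncomputable def hopfAlgebra : HopfAlgebra R H :=
  letI := bialgebra hinj hH
  HopfAlgebra.ofAlgHom (antipodeHom hH) (antipode_left_eq hinj hH) (antipode_right_eq hinj hH)

end Fermat.Agent.S19.Hopf
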