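import Fermat.Agent.S19.Hopf.Points
import Fermat.Agent.S19.A.Lin
import Fermat.Agent.S19.A.Zl

/-!
# S19 / Part A : `A.FlatOrder ⟹ A.HasFlatModel`

A `ℤ_(ℓ)`-order of equivariant functions (interface `S19/A/Defs.lean`) is a Hopf order in the sense of
`S19/Hopf/Defs.lean`; hence `Hopf.exists_hopfAlgebra` gives the frozen existential of S19.
-/

set_option autoImplicit false
set_option linter.style.haveILetI false
set_option linter.unusedSectionVars false

namespace Fermat.Agent.S19.Hopf

open Fermat.Agent.S19.A (Qb GQ Zl FlatOrder IsGalAction HasFlatModel)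

variable {ℓ : ℕ} [Fact ℓ.Prime] {G : Type} [AddCommGroup G] {act : GQ → G → G}
  {H : Subalgebra (Zl ℓ) (G → Qb)}

theorem act_surjective (hact : IsGalAction act) (σ : GQ) : Function.Surjective (act σ) := by
  intro x
  refine ⟨act σ⁻¹ x, ?_⟩
  rw [← hact.mul, mul_inv_cancel, hact.one]

theorem act_zero (hact : IsGalAction act) (σ : GQ) : act σ 0 = 0 := by
  have h := hact.add σ 0 0
  rw [add_zero] at h
  exact left_eq_add.mp h

/-- a basis of `H` over `ℤ_(ℓ)` is a basis of all functions over `Qbar`. -/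
theorem exists_basis_of_flatOrder [Finite G] (hact : IsGalAction act) (h : FlatOrder ℓ act H) :
    ∃ (n : ℕ) (b : Module.Basis (Fin n) (Zl ℓ) H),
      LinearIndependent Qb (fun i => ((b i : H) : G → Qb)) ∧ n = Nat.card G := by
  classical
  haveI : Module.Finite (Zl ℓ) H := Module.Finite.of_fg h.fg
  haveI : IsPrincipalIdealRing (Zl ℓ) := A.isPrincipalIdealRing_Zl ℓ
  haveI : Module.IsTorsionFree (Zl ℓ) (G → Qb) := by
    haveI : FaithfulSMul (Zl ℓ) Qb :=
      (faithfulSMul_iff_algebraMap_injective _ _).mpr (A.algebraMap_Zl_Qb_injective ℓ)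
    infer_instance
  haveI : Module.IsTorsionFree (Zl ℓ) H :=
    Function.Injective.moduleIsTorsionFree (Subalgebra.val H).toLinearMap Subtype.val_injective
      (fun _ _ => rfl)
  obtain ⟨n, b⟩ := Module.basisOfFiniteTypeTorsionFree' (R := Zl ℓ) (M := H)
  have hR : LinearIndependent (Zl ℓ) (fun i => ((b i : H) : G → Qb)) :=
    b.linearIndependent.map' (Subalgebra.val H).toLinearMap
      (LinearMap.ker_eq_bot.mpr Subtype.val_injective)
  have hli : LinearIndependent Qb (fun i => ((b i : H) : G → Qb)) :=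
    A.linearIndependent_of_equivariant (fun σ : GQ => (σ : Qb →+* Qb)) act (act_surjective hact)
      (fun c hc => A.exists_fraction_of_fixed ℓ hc) _ (fun i σ x => h.equiv _ (b i).2 σ x) hR
  refine ⟨n, b, hli, ?_⟩
  have hspanH : Submodule.span Qb (H : Set (G → Qb)) = ⊤ :=
    A.span_eq_top_of_separates (H : Set (G → Qb)) H.one_mem (fun f hf g hg => H.mul_mem hf hg) h.sep
  have hspan : Submodule.span Qb (Set.range fun i => ((b i : H) : G → Qb)) = ⊤ := by
    rw [eq_top_iff, ← hspanH, Submodule.span_le]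
    intro φ hφ
    have h1 := b.sum_repr ⟨φ, hφ⟩
    have h2 : φ = ∑ i, (b.repr ⟨φ, hφ⟩ i) • ((b i : H) : G → Qb) := by
      have h4 := congrArg (Subalgebra.val H) h1
      rw [map_sum] at h4
      exact h4.symm
    rw [h2]
    refine Submodule.sum_mem _ fun i _ => ?_
    rw [← algebraMap_smul Qb]
    exact Submodule.smul_mem _ _ (Submodule.subset_span ⟨i, rfl⟩)
  have h3 := Module.finrank_eq_card_basis (Module.Basis.mk hli hspan.ge)
  haveI := Fintype.ofFinite G
  rw [Module.finrank_fintype_fun_eq_card, Fintype.card_fin] at h3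
  rw [Nat.card_eq_fintype_card, h3]

theorem counit_of_flatOrder (hact : IsGalAction act) (h : FlatOrder ℓ act H) :
    ∀ φ ∈ H, φ 0 ∈ Set.range (algebraMap (Zl ℓ) Qb) := by
  intro φ hφ
  obtain ⟨q, hq⟩ := A.exists_rat_of_fixed (c := φ 0) (fun σ => by
    rw [← h.equiv φ hφ σ 0, act_zero hact])
  have h1 : IsIntegral (Zl ℓ) φ := IsIntegral.of_mem_of_fg H h.fg φ hφ
  have h2 : IsIntegral (Zl ℓ) (φ 0) := h1.map (Pi.evalAlgHom (Zl ℓ) (fun _ : G => Qb) 0)
  rw [← hq] at h2
  exact ⟨⟨q, A.exists_Zl_of_isIntegral ℓ h2⟩, by rw [A.algebraMap_Zl_Qb, hq]⟩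

theorem comul_of_flatOrder (h : FlatOrder ℓ act H) : ComulClosed H := by
  intro φ hφ
  obtain ⟨ι, _, a, c, ha, hc, hs⟩ := h.comul φ hφ
  refine ⟨Fintype.card ι, fun i => a ((Fintype.equivFin ι).symm i),
    fun i => c ((Fintype.equivFin ι).symm i), fun i => ha _, fun i => hc _, fun x y => ?_⟩
  rw [hs x y]
  exact ((Fintype.equivFin ι).symm.sum_comp (fun i => a i x * c i y)).symm

theorem comp_nsmul_of_flatOrder (hact : IsGalAction act) (h : FlatOrder ℓ act H) (m : ℕ) :
    ∀ φ ∈ H, (fun x => φ (m • x)) ∈ H := by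
  induction m with
  | zero =>
    intro φ hφ
    obtain ⟨r, hr⟩ := counit_of_flatOrder hact h φ hφ
    have : (fun x : G => φ (0 • x)) = algebraMap (Zl ℓ) (G → Qb) r := by
      funext x
      rw [zero_smul, ← hr]
      rfl
    rw [this]
    exact H.algebraMap_mem r
  | succ m ih =>
    intro φ hφ
    obtain ⟨ι, _, a, c, ha, hc, hs⟩ := h.comul φ hφ
    have : (fun x : G => φ ((m + 1) • x)) = ∑ i, (fun x => a i (m • x)) * c i := by
      funext x
      rw [succ_nsmul, hs, Finset.sum_apply]
      rfl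
    rw [this]
    exact H.sum_mem fun i _ => H.mul_mem (ih _ (ha i)) (hc i)

theorem antipode_of_flatOrder [Finite G] (hact : IsGalAction act) (h : FlatOrder ℓ act H) :
    ∀ φ ∈ H, (fun x => φ (-x)) ∈ H := by
  intro φ hφ
  have hpos : 0 < Nat.card G := Nat.card_pos
  have h1 := comp_nsmul_of_flatOrder hact h (Nat.card G - 1) φ hφ
  have h2 : ∀ x : G, (Nat.card G - 1) • x = -x := by
    intro x
    have h3 : (Nat.card G - 1) • x + x = 0 := by
      rw [← succ_nsmul, Nat.sub_add_cancel hpos]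
      exact card_nsmul_eq_zero'
    exact eq_neg_of_add_eq_zero_left h3
  simpa only [h2] using h1

theorem isHopfOrder_of_flatOrder [Finite G] (hact : IsGalAction act) (h : FlatOrder ℓ act H) :
    IsHopfOrder H :=
  ⟨exists_basis_of_flatOrder hact h, comul_of_flatOrder h, counit_of_flatOrder hact h,
    antipode_of_flatOrder hact h⟩

/-- **(A1)** an order of equivariant functions gives a finite flat model. -/
theorem hasFlatModel_of_flatOrder [Finite G] (hact : IsGalAction act) (h : FlatOrder ℓ act H) :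
    HasFlatModel ℓ G act := by
  obtain ⟨H', i1, i2, h1, h2, h3, e, he, hst⟩ :=
    exists_hopfAlgebra (A.algebraMap_Zl_Qb_injective ℓ) H (isHopfOrder_of_flatOrder hact h)
  refine ⟨H', i1, i2, h1, h2, h3, e, he, fun σ f g hfg => ?_⟩
  exact hst σ (act σ) (fun φ hφ x => h.equiv φ hφ σ x) f g hfg

end Fermat.Agent.S19.Hopf
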