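import Fermat.Agent.S19.Hopf.Core

/-!
# S19 / Part A : coassociativity (task S19/A-Coassoc)

METHOD: `AlgHom.ext`, then apply an injective map from the target to a function algebra
(`mu3_injective`, `mu2_injective`, `Subtype.val_injective`, `hinj`), `funext` a point, and compute.  The
computation needs a "naturality" lemma, proved by `TensorProduct.induction_on` (pure tensors: `mu2_tmul`,
`mu3_tmul`, `mu2_comulHom`, `algebraMap_counitHom`; sums: `map_add`, `Pi.add_apply`):
* `mu3 H ((id ⊗ comul) t) (x,(y,z)) = mu2 H H t (x, y+z)`;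
* `mu3 H (assoc ((comul ⊗ id) t)) (x,(y,z)) = mu2 H H t (x+y, z)`.
Both sides of `coassoc_eq` applied to `φ` then give `φ (x+y+z)` (`mu2_comulHom`, `add_assoc`).
-/

set_option autoImplicit false
set_option linter.style.haveILetI false
set_option linter.unusedSectionVars false

open scoped TensorProduct

namespace Fermat.Agent.S19.Hopf

variable {R Ω : Type*} [CommRing R] [Field Ω] [Algebra R Ω]
variable {G : Type*} [AddCommGroup G]
variable (hinj : Function.Injective (algebraMap R Ω)) {H : Subalgebra R (G → Ω)}
  (hH : IsHopfOrder H)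

theorem Coassoc_nat1 (t : H ⊗[R] H) (x y z : G) :
    mu3 H ((Algebra.TensorProduct.map (.id R H) (comulHom hinj hH)) t) (x, (y, z))
      = mu2 H H t (x, y + z) := by
  induction t using TensorProduct.induction_on with
  | zero => simp
  | tmul a c =>
    rw [Algebra.TensorProduct.map_tmul, mu3_tmul, mu2_comulHom, mu2_tmul]
    rfl
  | add s t hs ht => rw [map_add, map_add, map_add, Pi.add_apply, Pi.add_apply, hs, ht]

omit [AddCommGroup G] in
theorem Coassoc_nat2a (H : Subalgebra R (G → Ω)) (s : H ⊗[R] H) (c : H) (x y z : G) :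
    mu3 H (Algebra.TensorProduct.assoc R R R H H H (s ⊗ₜ[R] c)) (x, (y, z))
      = mu2 H H s (x, y) * (c : G → Ω) z := by
  induction s using TensorProduct.induction_on with
  | zero => simp
  | tmul a b =>
    rw [Algebra.TensorProduct.assoc_tmul, mu3_tmul, mu2_tmul, mu2_tmul, mul_assoc]
  | add s t hs ht =>
    rw [TensorProduct.add_tmul, map_add, map_add, map_add, Pi.add_apply, Pi.add_apply, hs, ht,
      add_mul]

theorem Coassoc_nat2 (t : H ⊗[R] H) (x y z : G) :
    mu3 H (Algebra.TensorProduct.assoc R R R H H H
      ((Algebra.TensorProduct.map (comulHom hinj hH) (.id R H)) t)) (x, (y, z))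
      = mu2 H H t (x + y, z) := by
  induction t using TensorProduct.induction_on with
  | zero => simp
  | tmul a c =>
    rw [Algebra.TensorProduct.map_tmul, Coassoc_nat2a, mu2_comulHom, mu2_tmul]
    rfl
  | add s t hs ht =>
    rw [map_add, map_add, map_add, map_add, Pi.add_apply, Pi.add_apply, hs, ht]

theorem coassoc_eq :
    (Algebra.TensorProduct.assoc R R R H H H).toAlgHom.comp
      ((Algebra.TensorProduct.map (comulHom hinj hH) (.id R H)).comp (comulHom hinj hH))
      = (Algebra.TensorProduct.map (.id R H) (comulHom hinj hH)).comp (comulHom hinj hH) := by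
  apply AlgHom.ext
  intro φ
  apply mu3_injective hinj hH
  funext ⟨x, y, z⟩
  have h1 := Coassoc_nat2 hinj hH (comulHom hinj hH φ) x y z
  have h2 := Coassoc_nat1 hinj hH (comulHom hinj hH φ) x y z
  rw [mu2_comulHom] at h1 h2
  refine Eq.trans h1 (Eq.trans ?_ h2.symm)
  exact congrArg (φ : G → Ω) (add_assoc x y z)

end Fermat.Agent.S19.Hopf
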