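import Fermat.Agent.S19.Hopf.Bialg

/-!
# S19 / Part A : cocommutativity (task S19/A-Cocomm)

`Coalgebra.IsCocomm.mk`: `(TensorProduct.comm R H H) ∘ₗ comul = comul`; here `comul` unfolds to
`(comulHom hinj hH).toLinearMap`.  `LinearMap.ext φ`, apply `mu2_injective`, `funext p`; naturality lemma
`mu2 H H (TensorProduct.comm R H H t) (x,y) = mu2 H H t (y,x)` (`TensorProduct.induction_on`,
`mul_comm`); then `mu2_comulHom` and `add_comm`.
-/

set_option autoImplicit false
set_option linter.style.haveILetI false
set_option linter.unusedSectionVars false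

open scoped TensorProduct

namespace Fermat.Agent.S19.Hopf

variable {R Ω : Type*} [CommRing R] [Field Ω] [Algebra R Ω]
variable {G : Type*} [AddCommGroup G]
variable (hinj : Function.Injective (algebraMap R Ω)) {H : Subalgebra R (G → Ω)}
  (hH : IsHopfOrder H)

omit [AddCommGroup G] in
theorem Cocomm.mu2_comm (H : Subalgebra R (G → Ω)) (t : H ⊗[R] H) (x y : G) :
    mu2 H H (TensorProduct.comm R H H t) (x, y) = mu2 H H t (y, x) := by
  induction t using TensorProduct.induction_on with
  | zero => simp
  | tmul a c => simp [mul_comm]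
  | add s t hs ht => simp only [map_add, Pi.add_apply, hs, ht]

theorem isCocomm : letI := hopfAlgebra hinj hH; Coalgebra.IsCocomm R H := by
  letI := hopfAlgebra hinj hH
  refine ⟨LinearMap.ext fun φ => mu2_injective hinj hH (funext fun p => ?_)⟩
  obtain ⟨x, y⟩ := p
  change mu2 H H (TensorProduct.comm R H H (comulHom hinj hH φ)) (x, y)
    = mu2 H H (comulHom hinj hH φ) (x, y)
  rw [Cocomm.mu2_comm, mu2_comulHom, mu2_comulHom, add_comm]

end Fermat.Agent.S19.Hopf
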