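import Fermat.Agent.S19.Hopf.Inj

/-!
# S19 / Part A : the Hopf algebra structure on a Hopf order

All identities are proved by composing with the injective maps `mu2`, `mu3` into function algebras
and evaluating at points.
-/

set_option autoImplicit false

open scoped TensorProduct

namespace Fermat.Agent.S19.Hopf

variable {R Ω : Type*} [CommRing R] [Field Ω] [Algebra R Ω]
variable {G : Type*} [AddCommGroup G]

/-- `φ ↦ ((x,y) ↦ φ (x+y))`. -/
def addHom (H : Subalgebra R (G → Ω)) : H →ₐ[R] (G × G → Ω) :=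
  (pull R Ω (fun p : G × G => p.1 + p.2)).comp H.val

theorem addHom_mem_range {H : Subalgebra R (G → Ω)} (hH : IsHopfOrder H) (φ : H) :
    addHom H φ ∈ (mu2 H H).range := by
  obtain ⟨n, a, c, ha, hc, h⟩ := hH.comul φ φ.2
  refine ⟨∑ i, (⟨a i, ha i⟩ : H) ⊗ₜ[R] (⟨c i, hc i⟩ : H), ?_⟩
  funext p
  rw [map_sum, Finset.sum_apply]
  exact (h p.1 p.2).symm

/-- the comultiplication. -/
noncomputable def comulHom (hinj : Function.Injective (algebraMap R Ω)) {H : Subalgebra R (G → Ω)}
    (hH : IsHopfOrder H) : H →ₐ[R] H ⊗[R] H :=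
  ((AlgEquiv.ofInjective (mu2 H H) (mu2_injective hinj hH)).symm : (mu2 H H).range →ₐ[R] H ⊗[R] H).comp
    ((addHom H).codRestrict (mu2 H H).range (addHom_mem_range hH))

theorem mu2_comulHom (hinj : Function.Injective (algebraMap R Ω)) {H : Subalgebra R (G → Ω)}
    (hH : IsHopfOrder H) (φ : H) (p : G × G) :
    mu2 H H (comulHom hinj hH φ) p = (φ : G → Ω) (p.1 + p.2) := by
  have h1 : mu2 H H (comulHom hinj hH φ) = addHom H φ := by
    have := (AlgEquiv.ofInjective (mu2 H H) (mu2_injective hinj hH)).apply_symm_apply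
      ((addHom H).codRestrict (mu2 H H).range (addHom_mem_range hH) φ)
    exact congrArg Subtype.val this
  rw [h1]; rfl

/-- evaluation at `0`, with values in `Ω`. -/
def evalZero (H : Subalgebra R (G → Ω)) : H →ₐ[R] Ω :=
  (Pi.evalAlgHom R (fun _ : G => Ω) 0).comp H.val

/-- the counit. -/
noncomputable def counitHom (hinj : Function.Injective (algebraMap R Ω)) {H : Subalgebra R (G → Ω)}
    (hH : IsHopfOrder H) : H →ₐ[R] R :=
  ((AlgEquiv.ofInjective (Algebra.ofId R Ω) hinj).symm : (Algebra.ofId R Ω).range →ₐ[R] R).comp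
    ((evalZero H).codRestrict (Algebra.ofId R Ω).range (fun φ => hH.counit φ φ.2))

theorem algebraMap_counitHom (hinj : Function.Injective (algebraMap R Ω))
    {H : Subalgebra R (G → Ω)} (hH : IsHopfOrder H) (φ : H) :
    algebraMap R Ω (counitHom hinj hH φ) = (φ : G → Ω) 0 := by
  have := (AlgEquiv.ofInjective (Algebra.ofId R Ω) hinj).apply_symm_apply
    ((evalZero H).codRestrict (Algebra.ofId R Ω).range (fun φ => hH.counit φ φ.2) φ)
  exact congrArg Subtype.val this

/-- the antipode. -/
def antipodeHom {H : Subalgebra R (G → Ω)} (hH : IsHopfOrder H) : H →ₐ[R] H :=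
  ((pull R Ω (fun x : G => -x)).comp H.val).codRestrict H (fun φ => hH.antipode φ φ.2)

@[simp] theorem antipodeHom_apply {H : Subalgebra R (G → Ω)} (hH : IsHopfOrder H) (φ : H) (x : G) :
    (antipodeHom hH φ : G → Ω) x = (φ : G → Ω) (-x) := rfl

end Fermat.Agent.S19.Hopf
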