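import Mathlib

/-!
# S19 / Part A : Hopf orders in function algebras -- definitions

`G` a finite abelian group, `Ω` a field, `R → Ω` a ring.  A *Hopf order* is an `R`-subalgebra `H` of
the algebra of functions `G → Ω`, free over `R` on a family which is an `Ω`-basis of `G → Ω`, and
stable under `φ ↦ φ(x+y)`, `φ ↦ φ(0)`, `φ ↦ φ(-x)`.
-/

set_option autoImplicit false

open scoped TensorProduct

namespace Fermat.Agent.S19.Hopf

variable {R Ω : Type*} [CommRing R] [Field Ω] [Algebra R Ω]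

/-- pull back functions along `f`. -/
def pull (R Ω : Type*) [CommRing R] [Field Ω] [Algebra R Ω] {X Y : Type*} (f : Y → X) :
    (X → Ω) →ₐ[R] (Y → Ω) :=
  AlgHom.pi (fun y => Pi.evalAlgHom R (fun _ : X => Ω) (f y))

@[simp] theorem pull_apply {X Y : Type*} (f : Y → X) (φ : X → Ω) (y : Y) :
    pull R Ω f φ y = φ (f y) := rfl

/-- `a ⊗ c ↦ ((x,y) ↦ a x * c y)`. -/
noncomputable def mu2 {X Y : Type*} (H₁ : Subalgebra R (X → Ω)) (H₂ : Subalgebra R (Y → Ω)) :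
    H₁ ⊗[R] H₂ →ₐ[R] (X × Y → Ω) :=
  Algebra.TensorProduct.lift ((pull R Ω Prod.fst).comp H₁.val) ((pull R Ω Prod.snd).comp H₂.val)
    (fun _ _ => Commute.all _ _)

@[simp] theorem mu2_tmul {X Y : Type*} (H₁ : Subalgebra R (X → Ω)) (H₂ : Subalgebra R (Y → Ω))
    (a : H₁) (c : H₂) (p : X × Y) : mu2 H₁ H₂ (a ⊗ₜ[R] c) p = (a : X → Ω) p.1 * (c : Y → Ω) p.2 := by
  simp [mu2]

/-- `a ⊗ (c ⊗ d) ↦ ((x,y,z) ↦ a x * c y * d z)`. -/
noncomputable def mu3 {X : Type*} (H : Subalgebra R (X → Ω)) :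
    H ⊗[R] (H ⊗[R] H) →ₐ[R] (X × (X × X) → Ω) :=
  Algebra.TensorProduct.lift ((pull R Ω Prod.fst).comp H.val) ((pull R Ω Prod.snd).comp (mu2 H H))
    (fun _ _ => Commute.all _ _)

@[simp] theorem mu3_tmul {X : Type*} (H : Subalgebra R (X → Ω)) (a : H) (t : H ⊗[R] H)
    (p : X × (X × X)) : mu3 H (a ⊗ₜ[R] t) p = (a : X → Ω) p.1 * mu2 H H t p.2 := by
  simp [mu3]

variable {G : Type*} [AddCommGroup G]

/-- `H` is stable under comultiplication: `φ(x+y) = ∑ aᵢ(x) cᵢ(y)` with `aᵢ, cᵢ ∈ H`. -/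
def ComulClosed (H : Subalgebra R (G → Ω)) : Prop :=
  ∀ φ ∈ H, ∃ (n : ℕ) (a c : Fin n → G → Ω), (∀ i, a i ∈ H) ∧ (∀ i, c i ∈ H) ∧
    ∀ x y, φ (x + y) = ∑ i, a i x * c i y

/-- A Hopf order in the algebra of functions on `G`. -/
structure IsHopfOrder (H : Subalgebra R (G → Ω)) : Prop where
  exists_basis : ∃ (n : ℕ) (b : Module.Basis (Fin n) R H),
    LinearIndependent Ω (fun i => ((b i : H) : G → Ω)) ∧ n = Nat.card G
  comul : ComulClosed H
  counit : ∀ φ ∈ H, φ 0 ∈ Set.range (algebraMap R Ω)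
  antipode : ∀ φ ∈ H, (fun x => φ (-x)) ∈ H

end Fermat.Agent.S19.Hopf
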