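import Fermat.Agent.S19.Hopf.Defs

/-!
# S19 / Part A : injectivity of `H ⊗ H → functions on G × G` (task S19/A-Inj)

Proof sketch.  `prod_li`: if `∑_{i,j} c_{ij} f_i(x) g_j(y) = 0` for all `x y`, fix `y`: by independence
of the `f_i`, `∑_j c_{ij} g_j(y) = 0` for all `i`, `y`; by independence of the `g_j`, `c_{ij} = 0`.
`mu2_injective`: the basis `b i ⊗ b j` of `H ⊗ H` (`Module.Basis.tensorProduct`) is sent to the
`Ω`-independent, hence (`LinearIndependent.restrict_scalars`, `algebraMap R Ω` injective)
`R`-independent family `b i x * b j y`; a linear map sending a basis to an independent family is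
injective (`LinearMap.ker_eq_bot`, `Module.Basis.repr`, or `LinearIndependent.injective...`).
`mu3_injective`: the same with the basis `b i ⊗ (b j ⊗ b k)`, using `prod_li` twice.
-/

set_option autoImplicit false

open scoped TensorProduct

namespace Fermat.Agent.S19.Hopf

variable {R Ω : Type*} [CommRing R] [Field Ω] [Algebra R Ω]

/-- products of independent families of functions in separate variables are independent. -/
theorem prod_li {X Y ι κ : Type*} {f : ι → X → Ω} {g : κ → Y → Ω}
    (hf : LinearIndependent Ω f) (hg : LinearIndependent Ω g) :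
    LinearIndependent Ω (fun (p : ι × κ) (q : X × Y) => f p.1 q.1 * g p.2 q.2) := by
  classical
  rw [linearIndependent_iff'] at hf hg ⊢
  intro s c h p hp
  set c' : ι × κ → Ω := fun p => if p ∈ s then c p else 0 with hc'
  set s₁ := s.image Prod.fst
  set s₂ := s.image Prod.snd
  have hsub : s ⊆ s₁ ×ˢ s₂ := fun q hq =>
    Finset.mem_product.2 ⟨Finset.mem_image_of_mem _ hq, Finset.mem_image_of_mem _ hq⟩
  have h1 : ∀ x y, ∑ i ∈ s₁, ∑ j ∈ s₂, c' (i, j) * (f i x * g j y) = 0 := by
    intro x y
    rw [← Finset.sum_product']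
    have h0 := congrFun h (x, y)
    rw [Finset.sum_apply] at h0
    simp only [Pi.smul_apply, smul_eq_mul, Pi.zero_apply] at h0
    rw [← h0]
    symm
    apply Finset.sum_subset_zero_on_sdiff hsub
    · intro q hq
      simp [c', (Finset.mem_sdiff.1 hq).2]
    · intro q hq
      simp [c', hq]
  have h2 : ∀ y, ∀ i ∈ s₁, ∑ j ∈ s₂, c' (i, j) * g j y = 0 := by
    intro y
    apply hf s₁ (fun i => ∑ j ∈ s₂, c' (i, j) * g j y)
    ext x
    rw [Finset.sum_apply]
    simp only [Pi.smul_apply, smul_eq_mul, Pi.zero_apply]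
    rw [← h1 x y]
    refine Finset.sum_congr rfl fun i _ => ?_
    rw [Finset.sum_mul]
    exact Finset.sum_congr rfl fun j _ => by ring
  have h3 : ∀ i ∈ s₁, ∀ j ∈ s₂, c' (i, j) = 0 := by
    intro i hi
    apply hg s₂ (fun j => c' (i, j))
    ext y
    rw [Finset.sum_apply]
    simpa using h2 y i hi
  have h4 := h3 p.1 (Finset.mem_image_of_mem _ hp) p.2 (Finset.mem_image_of_mem _ hp)
  simpa [c', hp] using h4

/-- a linear map sending a (finite) basis to an independent family is injective. -/
theorem Inj_injective_of_basis {ι M N : Type*} [AddCommMonoid M] [AddCommMonoid N]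
    [Module R M] [Module R N] (B : Module.Basis ι R M) (φ : M →ₗ[R] N)
    (h : LinearIndependent R (fun i => φ (B i))) : Function.Injective φ := by
  have h1 : ∀ t, φ t = Finsupp.linearCombination R (fun i => φ (B i)) (B.repr t) := by
    intro t
    conv_lhs => rw [← B.linearCombination_repr t]
    rw [Finsupp.apply_linearCombination]
    rfl
  intro t₁ t₂ ht
  rw [h1, h1] at ht
  exact B.repr.injective (h ht)

theorem Inj_restrict {ι V : Type*} [AddCommMonoid V] [Module Ω V] [Module R V]
    [IsScalarTower R Ω V] (hinj : Function.Injective (algebraMap R Ω)) {v : ι → V}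
    (h : LinearIndependent Ω v) : LinearIndependent R v := by
  refine h.restrict_scalars ?_
  intro a c hac
  apply hinj
  simpa [Algebra.smul_def] using hac

variable {G : Type*} [AddCommGroup G]

theorem mu2_injective (hinj : Function.Injective (algebraMap R Ω)) {H : Subalgebra R (G → Ω)}
    (hH : IsHopfOrder H) : Function.Injective (mu2 H H) := by
  obtain ⟨n, b, hli, -⟩ := hH.exists_basis
  refine Inj_injective_of_basis (R := R) (M := H ⊗[R] H) (N := G × G → Ω)
    (b.tensorProduct b) (mu2 H H).toLinearMap ?_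
  have hfam : (fun p : Fin n × Fin n => (mu2 H H).toLinearMap ((b.tensorProduct b) p)) =
      fun (p : Fin n × Fin n) (q : G × G) =>
        ((b p.1 : H) : G → Ω) q.1 * ((b p.2 : H) : G → Ω) q.2 := by
    funext p q
    obtain ⟨i, j⟩ := p
    rw [Module.Basis.tensorProduct_apply]
    exact mu2_tmul H H _ _ q
  rw [hfam]
  have h1 := prod_li hli hli
  exact Inj_restrict hinj h1

theorem mu3_injective (hinj : Function.Injective (algebraMap R Ω)) {H : Subalgebra R (G → Ω)}
    (hH : IsHopfOrder H) : Function.Injective (mu3 H) := by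
  obtain ⟨n, b, hli, -⟩ := hH.exists_basis
  refine Inj_injective_of_basis (R := R) (M := H ⊗[R] (H ⊗[R] H)) (N := G × (G × G) → Ω)
    (b.tensorProduct (b.tensorProduct b)) (mu3 H).toLinearMap ?_
  have hfam : (fun p : Fin n × (Fin n × Fin n) =>
      (mu3 H).toLinearMap ((b.tensorProduct (b.tensorProduct b)) p)) =
      fun (p : Fin n × (Fin n × Fin n)) (q : G × (G × G)) =>
        ((b p.1 : H) : G → Ω) q.1 *
          (((b p.2.1 : H) : G → Ω) q.2.1 * ((b p.2.2 : H) : G → Ω) q.2.2) := by
    funext p q
    obtain ⟨i, j, k⟩ := p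
    rw [Module.Basis.tensorProduct_apply, Module.Basis.tensorProduct_apply]
    exact (mu3_tmul H _ _ q).trans (by rw [mu2_tmul])
  rw [hfam]
  have h1 := prod_li hli hli
  have h2 := prod_li hli h1
  exact Inj_restrict hinj h2

/-- the functions in `H` span all functions over `Ω` (count dimensions). -/
theorem span_eq_top [Finite G] {H : Subalgebra R (G → Ω)} (hH : IsHopfOrder H) :
    Submodule.span Ω ((H : Set (G → Ω))) = ⊤ := by
  obtain ⟨n, b, hli, hn⟩ := hH.exists_basis
  have : Fintype G := Fintype.ofFinite G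
  have h1 : Submodule.span Ω (Set.range fun i => ((b i : H) : G → Ω)) = ⊤ := by
    apply hli.span_eq_top_of_card_eq_finrank'
    rw [Module.finrank_fintype_fun_eq_card, Fintype.card_fin, hn, Nat.card_eq_fintype_card]
  rw [eq_top_iff, ← h1]
  apply Submodule.span_mono
  rintro _ ⟨i, rfl⟩
  exact (b i).2

/-- `H` separates the points of `G`. -/
theorem exists_ne [Finite G] {H : Subalgebra R (G → Ω)} (hH : IsHopfOrder H) {x y : G}
    (hxy : x ≠ y) : ∃ φ ∈ H, φ x ≠ φ y := by
  classical
  by_contra hcon
  push Not at hcon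
  let ℓ : (G → Ω) →ₗ[Ω] Ω :=
    (LinearMap.proj x : (G → Ω) →ₗ[Ω] Ω) - (LinearMap.proj y : (G → Ω) →ₗ[Ω] Ω)
  have h1 : Submodule.span Ω ((H : Set (G → Ω))) ≤ LinearMap.ker ℓ := by
    rw [Submodule.span_le]
    intro φ hφ
    rw [SetLike.mem_coe, LinearMap.mem_ker]
    simp [ℓ, hcon φ hφ]
  rw [span_eq_top hH] at h1
  have h2 : (Pi.single x 1 : G → Ω) ∈ LinearMap.ker ℓ := h1 Submodule.mem_top
  rw [LinearMap.mem_ker] at h2
  simp [ℓ, hxy.symm] at h2

end Fermat.Agent.S19.Hopf
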