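import Fermat.Agent.S19.Hopf.PointsB
import Fermat.Agent.S19.Hopf.Cocomm

/-!
# S19 / Part A : the points of a Hopf order, and the abstract form of the conclusion of S19
-/

set_option autoImplicit false
set_option linter.style.haveILetI false
set_option linter.unusedSectionVars false

open scoped TensorProduct

namespace Fermat.Agent.S19.Hopf

variable {R Ω : Type*} [CommRing R] [Field Ω] [Algebra R Ω]
variable {G : Type*} [AddCommGroup G]

/-- the points of `H`. -/
theorem exists_equiv [Finite G] (hinj : Function.Injective (algebraMap R Ω))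
    {H : Subalgebra R (G → Ω)} (hH : IsHopfOrder H) :
    letI := hopfAlgebra hinj hH
    ∃ e : WithConv (H →ₐ[R] Ω) ≃ G,
      (∀ (f : WithConv (H →ₐ[R] Ω)) (φ : H), f φ = (φ : G → Ω) (e f)) ∧
      ∀ f g : WithConv (H →ₐ[R] Ω), e (f * g) = e f + e g := by
  letI := hopfAlgebra hinj hH
  let e₀ : G ≃ (H →ₐ[R] Ω) := Equiv.ofBijective (evalAt H) (evalAt_bijective hinj hH)
  let e : WithConv (H →ₐ[R] Ω) ≃ G := (WithConv.equiv _).trans e₀.symm
  have he : ∀ f : WithConv (H →ₐ[R] Ω), f = WithConv.toConv (evalAt H (e f)) := by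
    intro f
    have : evalAt H (e f) = f.ofConv := e₀.apply_symm_apply f.ofConv
    rw [this]
  have he' : ∀ x : G, e (WithConv.toConv (evalAt H x)) = x := fun x => e₀.symm_apply_apply x
  refine ⟨e, fun f φ => ?_, fun f g => ?_⟩
  · conv_lhs => rw [he f]
    rfl
  · conv_lhs => rw [he f, he g, evalAt_convMul hinj hH]
    exact he' _

/-- **Part A, abstract form**: a Hopf order gives a finite flat cocommutative Hopf algebra with the
prescribed group of points; any semilinear symmetry `(s,t)` of `H` is seen on the points. -/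
theorem exists_hopfAlgebra {R Ω G : Type} [CommRing R] [Field Ω] [Algebra R Ω] [AddCommGroup G]
    [Finite G] (hinj : Function.Injective (algebraMap R Ω))
    (H : Subalgebra R (G → Ω)) (hH : IsHopfOrder H) :
    ∃ (H' : Type) (_ : CommRing H') (_ : HopfAlgebra R H'),
      Module.Finite R H' ∧ Module.Flat R H' ∧ Coalgebra.IsCocomm R H' ∧
      ∃ e : WithConv (H' →ₐ[R] Ω) ≃ G,
        (∀ f g : WithConv (H' →ₐ[R] Ω), e (f * g) = e f + e g) ∧
        ∀ (s : Ω → Ω) (t : G → G), (∀ φ ∈ H, ∀ x, φ (t x) = s (φ x)) →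
          ∀ f g : WithConv (H' →ₐ[R] Ω), (∀ h : H', g h = s (f h)) → e g = t (e f) := by
  obtain ⟨n, b, -, -⟩ := hH.exists_basis
  obtain ⟨e, he, hmul⟩ := exists_equiv hinj hH
  haveI : Module.Free R H := Module.Free.of_basis b
  refine ⟨H, inferInstance, hopfAlgebra hinj hH, Module.Finite.of_basis b,
    inferInstance, isCocomm hinj hH, e, hmul, ?_⟩
  intro s t hst f g hfg
  by_contra hne
  obtain ⟨φ, hφ, h⟩ := exists_ne hH hne
  apply h
  have h1 := hfg ⟨φ, hφ⟩
  rw [he g ⟨φ, hφ⟩, he f ⟨φ, hφ⟩] at h1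
  rw [hst φ hφ]
  exact h1

end Fermat.Agent.S19.Hopf
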