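import Fermat.Agent.S19.Hopf.Core

/-!
# S19 / Part A : algebra homs `H → Ω` are evaluations (task S19/A-Points-a)
-/

set_option autoImplicit false
set_option linter.style.haveILetI false
set_option linter.unusedSectionVars false

open scoped TensorProduct

namespace Fermat.Agent.S19.Hopf

variable {R Ω : Type*} [CommRing R] [Field Ω] [Algebra R Ω]
variable {G : Type*} [AddCommGroup G]

/-- evaluation at `x`. -/
def evalAt (H : Subalgebra R (G → Ω)) (x : G) : H →ₐ[R] Ω :=
  (Pi.evalAlgHom R (fun _ : G => Ω) x).comp H.val

@[simp] theorem evalAt_apply (H : Subalgebra R (G → Ω)) (x : G) (φ : H) :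
    evalAt H x φ = (φ : G → Ω) x := rfl

/-- Every `R`-algebra hom `H → Ω` is the evaluation at a unique point.
Injectivity: `exists_ne`.  Surjectivity: EITHER extend `f` `Ω`-linearly to `G → Ω` along the basis
(`hH.exists_basis`; independent + `n = card G` ⇒ `Ω`-basis), check multiplicativity on basis elements,
and use the idempotents `Pi.single x 1`; OR count: distinct algebra homs are `Ω`-independent
(`linearIndependent_monoidHom`) in `Hom_R(H,Ω) ≅ Ω^n`, so there are at most `n = card G` of them. -/
theorem evalAt_bijective [Finite G] (hinj : Function.Injective (algebraMap R Ω))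
    {H : Subalgebra R (G → Ω)} (hH : IsHopfOrder H) : Function.Bijective (evalAt H) := by
  classical
  have : Fintype G := Fintype.ofFinite G
  constructor
  · intro x y hxy
    by_contra hne
    obtain ⟨φ, hφ, h⟩ := exists_ne hH hne
    exact h (by simpa using DFunLike.congr_fun hxy ⟨φ, hφ⟩)
  · intro f
    obtain ⟨n, b, hli, hn⟩ := hH.exists_basis
    have hcard : Fintype.card (Fin n) = Module.finrank Ω (G → Ω) := by
      rw [Fintype.card_fin, Module.finrank_fintype_fun_eq_card, hn, Nat.card_eq_fintype_card]
    have hne : Nonempty (Fin n) := by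
      have h0 : 0 < n := by rw [hn]; exact Nat.card_pos
      exact ⟨⟨0, h0⟩⟩
    let B : Module.Basis (Fin n) Ω (G → Ω) := basisOfLinearIndependentOfCardEqFinrank hli hcard
    have hB : ∀ i, B i = ((b i : H) : G → Ω) := fun i => by simp [B]
    let F : (G → Ω) →ₗ[Ω] Ω := B.constr Ω (fun i => f (b i))
    have hFb : ∀ i, F ((b i : H) : G → Ω) = f (b i) := fun i => by
      rw [← hB, Module.Basis.constr_basis]
    have hFH0 : (F.restrictScalars R).comp H.val.toLinearMap = f.toLinearMap :=
      b.ext fun i => hFb i
    have hFH : ∀ φ : H, F (φ : G → Ω) = f φ := fun φ => LinearMap.congr_fun hFH0 φ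
    have hmul : ∀ u v : G → Ω, F (u * v) = F u * F v := by
      intro u v
      have hu : u ∈ Submodule.span Ω (H : Set (G → Ω)) := by rw [span_eq_top hH]; trivial
      have hv : v ∈ Submodule.span Ω (H : Set (G → Ω)) := by rw [span_eq_top hH]; trivial
      induction hu using Submodule.span_induction with
      | mem u hu =>
        induction hv using Submodule.span_induction with
        | mem v hv =>
          have h1 := hFH (⟨u, hu⟩ * ⟨v, hv⟩)
          rw [map_mul, ← hFH, ← hFH] at h1
          exact h1
        | zero => simp
        | add v w _ _ h1 h2 => rw [mul_add, map_add, map_add, h1, h2, mul_add]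
        | smul c v _ h =>
          rw [mul_smul_comm, map_smul, map_smul, h, smul_eq_mul, smul_eq_mul]; ring
      | zero => simp
      | add u w _ _ h1 h2 => rw [add_mul, map_add, map_add, h1, h2, add_mul]
      | smul c u _ h =>
        rw [smul_mul_assoc, map_smul, map_smul, h, smul_eq_mul, smul_eq_mul]; ring
    have hone : F 1 = 1 := by simpa using hFH 1
    have hsum : (1 : G → Ω) = ∑ x, Pi.single x 1 := (Finset.univ_sum_single (1 : G → Ω)).symm
    obtain ⟨x, hx⟩ : ∃ x : G, F (Pi.single x 1) ≠ 0 := by
      by_contra hcon
      push Not at hcon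
      have h0 : F 1 = 0 := by
        rw [hsum, map_sum]
        exact Finset.sum_eq_zero fun x _ => hcon x
      rw [hone] at h0
      exact one_ne_zero h0
    refine ⟨x, AlgHom.ext fun φ => ?_⟩
    have h1 : (φ : G → Ω) * Pi.single x 1 = (φ : G → Ω) x • Pi.single x (1 : Ω) := by
      funext y
      by_cases h : y = x
      · subst h; simp
      · simp [h]
    have h2 := hmul φ (Pi.single x 1)
    rw [h1, map_smul, smul_eq_mul] at h2
    rw [evalAt_apply, ← hFH]
    exact mul_right_cancel₀ hx h2

end Fermat.Agent.S19.Hopf
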