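import Fermat.Agent.S19.Hopf.Bialg
import Fermat.Agent.S19.Hopf.PointsA

/-!
# S19 / Part A : convolution of evaluations (task S19/A-Points-b)
-/

set_option autoImplicit false
set_option linter.style.haveILetI false
set_option linter.unusedSectionVars false

open scoped TensorProduct

namespace Fermat.Agent.S19.Hopf

variable {R Ω : Type*} [CommRing R] [Field Ω] [Algebra R Ω]
variable {G : Type*} [AddCommGroup G]

/-- naturality: `ev_x ⊗ ev_y` is `mu2` followed by the evaluation at `(x,y)`. -/
theorem lift_evalAt (H : Subalgebra R (G → Ω)) (x y : G) (t : H ⊗[R] H) :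
    Algebra.TensorProduct.lift (evalAt H x) (evalAt H y) (fun _ _ => Commute.all _ _) t
      = mu2 H H t (x, y) := by
  induction t using TensorProduct.induction_on with
  | zero => simp
  | tmul a c => simp
  | add a b ha hb => rw [map_add, map_add, ha, hb]; rfl

/-- Convolution of evaluations.  `AlgHom.convMul_apply`, then the naturality lemma
`lift (evalAt H x) (evalAt H y) _ t = mu2 H H t (x,y)` (`TensorProduct.induction_on`) and
`mu2_comulHom` (`comul` unfolds to `comulHom hinj hH`). -/
theorem evalAt_convMul (hinj : Function.Injective (algebraMap R Ω))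
    {H : Subalgebra R (G → Ω)} (hH : IsHopfOrder H) (x y : G) :
    letI := hopfAlgebra hinj hH
    (WithConv.toConv (evalAt H x) * WithConv.toConv (evalAt H y) : WithConv (H →ₐ[R] Ω))
      = WithConv.toConv (evalAt H (x + y)) := by
  letI := hopfAlgebra hinj hH
  have key : ∀ φ : H,
      (WithConv.toConv (evalAt H x) * WithConv.toConv (evalAt H y) : WithConv (H →ₐ[R] Ω)) φ
        = evalAt H (x + y) φ := by
    intro φ
    rw [AlgHom.convMul_apply]
    change Algebra.TensorProduct.lift (evalAt H x) (evalAt H y) _ (comulHom hinj hH φ) = _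
    rw [lift_evalAt, mu2_comulHom]
    rfl
  exact WithConv.ofConv_injective (AlgHom.ext key)

end Fermat.Agent.S19.Hopf
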